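import Fermat.Agent.S05
import Fermat.Agent.S08
import Fermat.Agent.Torsion.QBar
import Fermat.Prelude.Def_FLTPrelim_ModularRep
import Fermat.Prelude.Def_FreyPackage_IsConductorLevel
import Fermat.Prelude.Def_GaloisRep_Residual
import Fermat.Prelude.Def_WeierstrassCurve_PeuRamifiee
import Fermat.Prelude.Def_WeierstrassCurve_Mlc1RowStatement

/-!
# From modularity of the Frey curve to level two

The level lowering statements enter as explicit hypotheses, in two forms: for Frey packages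
(`S43`, `S44`) and for semistable curves (`S38`, `S39`).
-/

set_option autoImplicit false

namespace FLTAgent.Wiring

open WeierstrassCurve WeierstrassCurve.Affine.Point CuspForm
open scoped WeierstrassCurve.Affine

variable (P : FreyPackage)

/-- The shape of statement `S38`. -/
def LowerAwayFromP : Prop :=
  ∀ (p : ℕ) [Fact p.Prime], p ≠ 2 → ∀ (W : WeierstrassCurve ℤ), W.Δ ≠ 0 → W.IsSemistableModel →
    ∀ (hcard₁ : Nat.card (Submodule.torsionBy ℤ
      ((W.map (Int.castRingHom ℚ))⁄(AlgebraicClosure ℚ)).Point p) = p ^ 2)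
    (hker : GaloisFactorsThroughFiniteLevel
      (WeierstrassCurve.Affine.Point.galoisRepModuleEnd (K := AlgebraicClosure ℚ) ℚ
        (W.map (Int.castRingHom ℚ)) p)),
    W.ModRepIsIrreducible p → ∀ M q : ℕ, q.Prime → q ≠ p → q ∣ M → ¬ q ^ 2 ∣ M → Squarefree M →
    ((W.map (Int.castRingHom ℚ)).residualGaloisRepOf p hcard₁ hker).IsUnramifiedAt q →
    W.IsResiduallyModularOfLevel p M → W.IsResiduallyModularOfLevel p (M / q)

/-- The shape of statement `S39`. -/
def LowerAtP : Prop :=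
  ∀ (W : WeierstrassCurve ℤ), W.Δ ≠ 0 → ∀ {p : ℕ}, p.Prime → p ≠ 2 →
    ((p : ℤ) ∣ W.Δ → ¬ (p : ℤ) ∣ W.c₄) → W.ModRepIsIrreducible p →
    (W.map (Int.castRingHom ℚ)).IsPeuRamifieeAt p p →
    ∀ {M : ℕ}, 0 < M → p ∣ M → ¬ p ^ 2 ∣ M →
    W.IsResiduallyModularOfLevel p M → W.IsResiduallyModularOfLevel p (M / p)

/-- The shape of statement `S43`. -/
def FreyLowerAwayFromP : Prop :=
  ∀ {N q : ℕ}, P.IsConductorLevel N → q.Prime → q ≠ 2 → q ≠ P.p → q ∣ N →
    GaloisRepIsIrreducible (K := AlgebraicClosure ℚ) ℚ P.freyCurve P.p →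
    P.ModularRepOfLevel N → P.GaloisRepUnramifiedAt q →
    ∃ M : ℕ, M ∣ N ∧ ¬ q ∣ M ∧ P.ModularRepOfLevel M

/-- The shape of statement `S44`. -/
def FreyLowerAtP : Prop :=
  ∀ {N : ℕ}, P.IsConductorLevel N → P.p ∣ N →
    GaloisRepIsIrreducible (K := AlgebraicClosure ℚ) ℚ P.freyCurve P.p →
    P.ModularRepOfLevel N → ∃ M : ℕ, M ∣ N ∧ ¬ P.p ∣ M ∧ P.ModularRepOfLevel M

lemma isConductorLevel_of_dvd_conductor {N : ℕ} (h0 : 0 < N) (hsq : Squarefree N)
    (hN : ∀ q : ℕ, q.Prime → q ∣ N → (q : ℤ) ∣ P.freyCurveInt.Δ) : P.IsConductorLevel N :=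
  ⟨h0, hsq, fun q hq h => Frey.dvd_abc_of_dvd_Δ P hq (hN q hq h)⟩

theorem modularRepOfLevel_of_isResiduallyModularOfLevel {N : ℕ}
    (h : P.freyCurveInt.IsResiduallyModularOfLevel P.p N) : P.ModularRepOfLevel N := by
  obtain ⟨f, 𝔪, hf, h𝔪, hp, hc⟩ := h
  exact ⟨f, P.freyCurveInt, 𝔪, hf, Frey.isIntegralModelOf P, h𝔪, hp, hc⟩

theorem isResiduallyModularOfLevel_of_isModularModelOfLevel (W : WeierstrassCurve ℤ) {p N : ℕ}
    (hp : p.Prime) (h : W.IsModularModelOfLevel N) : W.IsResiduallyModularOfLevel p N := by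
  obtain ⟨f, hf, ha⟩ := h
  obtain ⟨𝔪, h𝔪, hpm⟩ := FLTPrelim.exists_maximalIdeal_natCast_prime_mem hp
  exact ⟨f, 𝔪, hf, h𝔪, hpm, fun ℓ hℓ hg hN _ =>
    ⟨((W.apOfModel ℓ : ℤ) : integralClosure ℤ ℂ), by rw [ha ℓ hℓ hg hN]; rfl,
      by rw [sub_self]; exact 𝔪.zero_mem⟩⟩

/-- `S06` from modularity of exact conductor level (the output of `S59`). -/
theorem exists_modularRepOfLevel
    (hmod : Mlc1IsModularModelOfExactConductorLevel P.freyCurveInt) :
    ∃ N : ℕ, P.IsConductorLevel N ∧ P.ModularRepOfLevel N := by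
  obtain ⟨N, h0, hsq, hiff, hN⟩ := hmod
  exact ⟨N, isConductorLevel_of_dvd_conductor P h0 hsq fun q hq h => (hiff q hq).1 h,
    modularRepOfLevel_of_isResiduallyModularOfLevel P
      (isResiduallyModularOfLevel_of_isModularModelOfLevel _ P.pp hN)⟩

/-- A squarefree level without odd primes is `1` or `2`. -/
lemma eq_one_or_two {M : ℕ} (h : Squarefree M) (hodd : ∀ q : ℕ, q.Prime → q ∣ M → q = 2) :
    M = 1 ∨ M = 2 := by
  rcases eq_or_ne M 1 with h1 | h1
  · exact Or.inl h1
  right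
  obtain ⟨q, hq, hqM⟩ := Nat.exists_prime_and_dvd h1
  obtain rfl := hodd q hq hqM
  obtain ⟨k, rfl⟩ := hqM
  rcases eq_or_ne k 1 with hk | hk
  · rw [hk, mul_one]
  obtain ⟨r, hr, hrk⟩ := Nat.exists_prime_and_dvd hk
  obtain rfl := hodd r hr (dvd_mul_of_dvd_right hrk _)
  exact absurd (h _ (mul_dvd_mul_left 2 hrk)) (by simp)

lemma false_of_level_one (h : P.ModularRepOfLevel 1) : False := by
  obtain ⟨f, -, -, hf, -⟩ := h
  exact hf.ne_zero (Fermat.Agent.S08.result f)

lemma exists_form_level_two {M : ℕ} (hM : M = 1 ∨ M = 2) (h : P.ModularRepOfLevel M) :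
    ∃ f : CuspForm (CongruenceSubgroup.Gamma0 2) 2, f ≠ 0 := by
  rcases hM with rfl | rfl
  · exact (false_of_level_one P h).elim
  · obtain ⟨f, -, -, hf, -⟩ := h
    exact ⟨f, hf.ne_zero⟩

variable (hirr : GaloisRepIsIrreducible (K := AlgebraicClosure ℚ) ℚ P.freyCurve P.p)
include hirr

/-- Level two from a conductor level, with the Frey forms of level lowering. -/
theorem exists_form_of_frey_lowering (h43 : FreyLowerAwayFromP P) (h44 : FreyLowerAtP P)
    {N : ℕ} (hN : P.IsConductorLevel N) (hmod : P.ModularRepOfLevel N) :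
    ∃ f : CuspForm (CongruenceSubgroup.Gamma0 2) 2, f ≠ 0 := by
  induction N using Nat.strong_induction_on with
  | _ N ih =>
    by_cases hex : ∃ q : ℕ, q.Prime ∧ q ∣ N ∧ q ≠ 2
    · obtain ⟨q, hq, hqN, hq2⟩ := hex
      obtain ⟨M, hMN, hqM, hM⟩ : ∃ M : ℕ, M ∣ N ∧ ¬ q ∣ M ∧ P.ModularRepOfLevel M := by
        by_cases hqp : q = P.p
        · subst hqp; exact h44 hN hqN hirr hmod
        · exact h43 hN hq hq2 hqp hqN hirr hmod (Fermat.Agent.S05.result P hq hq2 hqp)
      have hM0 : 0 < M := Nat.pos_of_dvd_of_pos hMN hN.pos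
      refine ih M (lt_of_le_of_ne (Nat.le_of_dvd hN.pos hMN) ?_) (hN.of_dvd hMN hM0) hM
      rintro rfl
      exact hqM hqN
    · push Not at hex
      exact exists_form_level_two P (eq_one_or_two hN.squarefree hex) hmod

/-- Level two from a squarefree level, with the forms of level lowering for semistable curves. -/
theorem exists_form_of_lowering (h38 : LowerAwayFromP) (h39 : LowerAtP)
    {N : ℕ} (hsq : Squarefree N) (hmod : P.freyCurveInt.IsResiduallyModularOfLevel P.p N) :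
    ∃ f : CuspForm (CongruenceSubgroup.Gamma0 2) 2, f ≠ 0 := by
  have := Fact.mk P.pp
  have hΔ := Frey.freyCurveInt_Δ_ne_zero P
  have hss := Frey.freyCurveInt_isSemistableModel P
  have hp2 : P.p ≠ 2 := by have := P.hp5; omega
  have hirr' : P.freyCurveInt.ModRepIsIrreducible P.p := by
    rw [ModRepIsIrreducible, Frey.freyCurveInt_map]; exact hirr
  have : (P.freyCurveInt.map (Int.castRingHom ℚ)).IsElliptic := by
    refine ⟨isUnit_iff_ne_zero.2 ?_⟩
    rw [map_Δ, eq_intCast]; exact Int.cast_ne_zero.2 hΔ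
  have hcard := Torsion.natCard_torsionBy_qbar (P.freyCurveInt.map (Int.castRingHom ℚ)) P.hp0
  have hker := Torsion.galoisFactorsThroughFiniteLevel_galoisRepModuleEnd
    (P.freyCurveInt.map (Int.castRingHom ℚ)) P.hp0
  induction N using Nat.strong_induction_on with
  | _ N ih =>
    have hN0 : 0 < N := Nat.pos_of_ne_zero hsq.ne_zero
    by_cases hex : ∃ q : ℕ, q.Prime ∧ q ∣ N ∧ q ≠ 2
    · obtain ⟨q, hq, hqN, hq2⟩ := hex
      have hq2N : ¬ q ^ 2 ∣ N := fun h => hq.not_isUnit (hsq q (by rwa [← pow_two]))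
      refine ih (N / q) (Nat.div_lt_self hN0 hq.one_lt) (hsq.squarefree_of_dvd
        (Nat.div_dvd_of_dvd hqN)) ?_
      by_cases hqp : q = P.p
      · subst hqp
        refine h39 _ hΔ P.pp hp2 (hss _ P.pp) hirr' ?_ hN0 hqN hq2N hmod
        rw [IsPeuRamifieeAt, map_Δ, eq_intCast, padicValRat.of_int]
        exact Int.natCast_dvd_natCast.2 (Frey.p_dvd_padicValInt_Δ P P.pp hp2)
      · refine h38 P.p hp2 _ hΔ hss hcard hker hirr' N q hq hqp hqN hq2N hsq ?_ hmod
        intro A hA σ hσ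
        refine LinearMap.ext fun x => ?_
        have key : GaloisRepUnramifiedAt (K := AlgebraicClosure ℚ) ℚ
            (P.freyCurveInt.map (Int.castRingHom ℚ)) P.p q := by
          rw [Frey.freyCurveInt_map]; exact Fermat.Agent.S05.result P hq hq2 hqp
        exact key A hA σ hσ x
    · push Not at hex
      exact exists_form_level_two P (eq_one_or_two hsq hex)
        (modularRepOfLevel_of_isResiduallyModularOfLevel P hmod)

/-- `S45` from modularity of exact conductor level and level lowering for semistable curves. -/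
theorem levelTwo_of_exact_level (h38 : LowerAwayFromP) (h39 : LowerAtP)
    (hmod : Mlc1IsModularModelOfExactConductorLevel P.freyCurveInt) :
    ∃ f : CuspForm (CongruenceSubgroup.Gamma0 2) 2, f ≠ 0 := by
  obtain ⟨N, -, hsq, -, hN⟩ := hmod
  exact exists_form_of_lowering P hirr h38 h39 hsq
    (isResiduallyModularOfLevel_of_isModularModelOfLevel _ P.pp hN)

end FLTAgent.Wiring
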