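import Fermat.Agent.Wiring.BaseModelHolds
import Fermat.Agent.RT.Lower.AwayChain
import Fermat.Agent.MazurP.Lower
import Fermat.Agent.LevelLower.Mazur

/-!
# Level lowering for Frey packages from lowering at scalar primes and the principle at `p`
-/

set_option autoImplicit false

open WeierstrassCurve

namespace FLTAgent.Wiring

/-- Mazur's principle away from `p`. -/
theorem mazurPrincipleExt_holds : RT.Lower.MazurPrincipleExt :=
  fun hqp hp hqM hsq => LevelLower.mazur_principle_or_three hqp hp hqM hsq

/-- The statement of `S43`. -/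
theorem freyLowerAwayFromP_of_scalar (P : FreyPackage)
    (hL : RT.Lower.ScalarLoweringAt P.freyCurveInt P.p) (h44 : FreyLowerAtP P) :
    FreyLowerAwayFromP P :=
  RT.Lower.freyLowerAwayFromP_of_at P Semistable.newformSpecialCharpoly_holds
    mazurPrincipleExt_holds hL h44

/-- The statement of `S45`. -/
theorem levelTwo_of_scalar (P : FreyPackage)
    (hL : RT.Lower.ScalarLoweringAt P.freyCurveInt P.p) (hcore : MazurP.PrincipleAtP)
    (hmod : P.freyCurve.IsModular)
    (hirr : Affine.Point.GaloisRepIsIrreducible (K := AlgebraicClosure ℚ) ℚ P.freyCurve P.p) :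
    ∃ f : CuspForm (CongruenceSubgroup.Gamma0 2) 2, f ≠ 0 :=
  levelTwo_of_freyLowering P
    (freyLowerAwayFromP_of_scalar P hL (MazurP.freyLowerAtP_of_principle hcore P))
    (MazurP.freyLowerAtP_of_principle hcore P) hmod hirr

end FLTAgent.Wiring
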