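import Fermat.Agent.Wiring.ResidualThree
import Fermat.Agent.Wiring.LevelLowering
import Fermat.Agent.S09
import Fermat.Agent.RT.Lifting
import Fermat.Agent.RT.Lower.Main
import Fermat.Agent.RT.Raise.Main
import Fermat.Agent.MazurP.Principle

/-!
# The root of the route

Modularity lifting is proved; the single input is `LT.CubicDescent`.
-/

set_option autoImplicit false
set_option linter.style.haveILetI false

open WeierstrassCurve

namespace FLTAgent.Wiring

/-- Modularity lifting at `3` and `5`. -/
theorem liftingThreeFive_holds : LiftingThreeFive := by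
  intro p hp W hΔ hss hirr M₀ _ hres hM₀ hM₀3
  have hp2 : p ≠ 2 := by omega
  have : Fact p.Prime := ⟨by rcases hp with rfl | rfl <;> norm_num⟩
  exact RT.modularityLifting hp2 hΔ hss hirr (RT.Lower.scalarLoweringAt W p)
    (RT.raiseConclusion W p) hres hM₀ hM₀3

/-- The shape of `S04`. -/
theorem frey_isModular_of_descent (hB : ∀ d : LT.Octa, LT.CubicDescent d) (P : FreyPackage) :
    P.freyCurve.IsModular :=
  frey_isModular_of_nonsplit liftingThreeFive_holds (residualThreeNonsplit_of_pieces hB) P

/-- The shape of `S06`. -/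
theorem frey_modularRep_of_descent (hB : ∀ d : LT.Octa, LT.CubicDescent d) (P : FreyPackage) :
    ∃ N : ℕ, P.IsConductorLevel N ∧ P.ModularRepOfLevel N :=
  frey_modularRep_of_nonsplit liftingThreeFive_holds (residualThreeNonsplit_of_pieces hB) P

/-- The shape of `S03`. -/
theorem freyPackage_false_of_descent (hB : ∀ d : LT.Octa, LT.CubicDescent d) (P : FreyPackage) :
    False :=
  freyPackage_false_of_levelTwo P
    (levelTwo_of_scalar P (RT.Lower.scalarLoweringAt _ _) MazurP.principleAtP
      (frey_isModular_of_descent hB P) (Fermat.Agent.S09.result P))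

/-- The shape of `S01`. -/
theorem fermat_of_descent (hB : ∀ d : LT.Octa, LT.CubicDescent d) (n : ℕ) (hn : 3 ≤ n)
    (a b c : ℕ) (ha : 0 < a) (hb : 0 < b) (hc : 0 < c) : a ^ n + b ^ n ≠ c ^ n :=
  fermat_of_noFreyPackage (freyPackage_false_of_descent hB) n hn a b c ha hb hc

end FLTAgent.Wiring
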