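import Fermat.Agent.Wiring.FromBaseModel
import Fermat.Agent.LevelSq.BaseModel

/-!
# `S58`, and `S45` from the Frey forms of level lowering

Base models exist at every prime.
-/

set_option autoImplicit false

open WeierstrassCurve

namespace FLTAgent.Wiring

/-- Base models exist at every prime. -/
theorem baseModelExists_holds (q : ℕ) [Fact q.Prime] : RT.Carayol.BaseModelExists q :=
  fun _A hA M hM hqM => LevelSq.exists_baseModel hA M hM hqM

/-- Base models exist at every prime, in the shape of the square level. -/
theorem baseModelAt_holds (q : ℕ) [Fact q.Prime] : LevelSq.BaseModelAt q :=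
  fun _A hA M hM hqM => LevelSq.exists_baseModel hA M hM hqM

/-- The statement of `S45` from the Frey forms of level lowering. -/
theorem levelTwo_of_freyLowering (P : FreyPackage)
    (h43 : FreyLowerAwayFromP P) (h44 : FreyLowerAtP P) (hmod : P.freyCurve.IsModular)
    (hirr : Affine.Point.GaloisRepIsIrreducible (K := AlgebraicClosure ℚ) ℚ P.freyCurve P.p) :
    ∃ f : CuspForm (CongruenceSubgroup.Gamma0 2) 2, f ≠ 0 :=
  levelTwo_of_baseModel P baseModelExists_holds h43 h44 hmod hirr

end FLTAgent.Wiring
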