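import Fermat.Agent.Wiring.Modularity
import Fermat.Agent.Switch3.Main
import Fermat.Agent.Switch3.FreyFacts

/-!
# Modularity of the Frey curve from residual modularity at curves non-split at three

Every Frey curve is irreducible at `5`; the switch lands on a curve irreducible at `3` which is
supersingular or très ramifié at `3`, so only those curves need residual modularity modulo `3`.
-/

set_option autoImplicit false

namespace FLTAgent.Wiring

open WeierstrassCurve WeierstrassCurve.Affine.Point CuspForm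

/-- Residual modularity modulo three, only for curves supersingular or très ramifié at three. -/
def ResidualThreeNonsplit : Prop :=
  ∀ (W : WeierstrassCurve ℤ), W.Δ ≠ 0 → W.IsSemistableModel → W.ModRepIsIrreducible 3 →
    Switch3.NonsplitAtThree W →
    ∃ M : ℕ, 0 < M ∧ ¬ 3 ^ 2 ∣ M ∧ (∀ q : ℕ, q.Prime → q ≠ 3 → ¬ q ^ 3 ∣ M) ∧
      W.IsResiduallyModularOfLevel 3 M

theorem residualThreeNonsplit_of_residualThree (h : ResidualThree) : ResidualThreeNonsplit :=
  fun W hΔ hW hirr _ => h W hΔ hW hirr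

/-- The 3-5 switch for Frey curves. -/
theorem exists_switch_frey (P : FreyPackage) :
    ∃ W' : WeierstrassCurve ℤ, W'.Δ ≠ 0 ∧ W'.IsSemistableModel ∧ W'.ModRepIsIrreducible 3 ∧
      Switch3.NonsplitAtThree W' ∧
      ∀ ℓ : ℕ, ℓ.Prime → P.freyCurveInt.IsGoodPrimeFor ℓ → W'.IsGoodPrimeFor ℓ → ℓ ≠ 5 →
        (5 : ℤ) ∣ (W'.apOfModel ℓ - P.freyCurveInt.apOfModel ℓ) := by
  refine Switch3.exists_switch_nonsplit _ (Frey.freyCurveInt_Δ_ne_zero P)
    (Frey.freyCurveInt_isSemistableModel P) ?_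
  by_cases h : (3 : ℤ) ∣ P.freyCurveInt.Δ
  · by_cases h3 : 3 ∣ padicValInt 3 P.freyCurveInt.Δ
    · exact Or.inr (Switch3.frey_pow_dvd_of_three_dvd P h h3)
    · exact Or.inl (Or.inr ⟨h, h3⟩)
  · exact Or.inl (Or.inl ⟨h, Switch3.frey_three_dvd_apOfModel P h⟩)

/-- **Modularity of the Frey curve at its exact conductor level.** -/
theorem frey_exactLevel (h59 : LiftingThreeFive) (h3 : ResidualThreeNonsplit) (P : FreyPackage) :
    Mlc1IsModularModelOfExactConductorLevel P.freyCurveInt := by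
  obtain ⟨W', hΔ', hW', hirr, hns, hcong⟩ := exists_switch_frey P
  obtain ⟨M, hM, h9, hq3, hres⟩ := h3 W' hΔ' hW' hirr hns
  have : NeZero M := ⟨hM.ne'⟩
  obtain ⟨N, hN0, hNsq, hiff, hmod⟩ := h59 3 (Or.inl rfl) W' hΔ' hW' hirr M hres h9 hq3
  have : NeZero N := ⟨hN0.ne'⟩
  have hsq : ∀ q : ℕ, q.Prime → ¬ q ^ 2 ∣ N := fun q hq h =>
    hq.not_isUnit (hNsq q (by rwa [← pow_two]))
  exact h59 5 (Or.inr rfl) P.freyCurveInt (Frey.freyCurveInt_Δ_ne_zero P)
    (Frey.freyCurveInt_isSemistableModel P) (Switch3.frey_modRepIsIrreducible_five P) N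
    (isResiduallyModularOfLevel_of_congr Nat.prime_five
      (fun ℓ hℓ hlN hd => hlN ((hiff ℓ hℓ).2 hd)) hmod hcong) (hsq 5 Nat.prime_five)
    fun q hq _ h => hsq q hq ((pow_dvd_pow q (by decide)).trans h)

/-- The shape of `S04`. -/
theorem frey_isModular_of_nonsplit (h59 : LiftingThreeFive) (h3 : ResidualThreeNonsplit)
    (P : FreyPackage) : P.freyCurve.IsModular := by
  obtain ⟨N, hN0, -, -, hmod⟩ := frey_exactLevel h59 h3 P
  have h : (P.freyCurveInt.map (Int.castRingHom ℚ)).IsModular :=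
    ⟨P.freyCurveInt, ⟨1, one_smul _ _⟩, N, hN0, hmod⟩
  rwa [Frey.freyCurveInt_map] at h

/-- The shape of `S06`. -/
theorem frey_modularRep_of_nonsplit (h59 : LiftingThreeFive) (h3 : ResidualThreeNonsplit)
    (P : FreyPackage) : ∃ N : ℕ, P.IsConductorLevel N ∧ P.ModularRepOfLevel N :=
  exists_modularRepOfLevel P (frey_exactLevel h59 h3 P)

/-- The shape of `S01`. -/
theorem fermat_of_nonsplit_inputs (h59 : LiftingThreeFive) (h3 : ResidualThreeNonsplit)
    (h09 : ∀ P : FreyPackage,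
      GaloisRepIsIrreducible (K := AlgebraicClosure ℚ) ℚ P.freyCurve P.p)
    (h45 : ∀ P : FreyPackage,
      GaloisRepIsIrreducible (K := AlgebraicClosure ℚ) ℚ P.freyCurve P.p →
      Mlc1IsModularModelOfExactConductorLevel P.freyCurveInt →
      ∃ f : CuspForm (CongruenceSubgroup.Gamma0 2) 2, f ≠ 0)
    (n : ℕ) (hn : 3 ≤ n) (a b c : ℕ) (ha : 0 < a) (hb : 0 < b) (hc : 0 < c) :
    a ^ n + b ^ n ≠ c ^ n :=
  fermat_of_noFreyPackage (fun P => freyPackage_false_of_levelTwo P
    (h45 P (h09 P) (frey_exactLevel h59 h3 P))) n hn a b c ha hb hc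

end FLTAgent.Wiring
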