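import Fermat.Agent.Wiring.SquarefreeLevel
import Fermat.Agent.LevelSq.Geometry
import Fermat.Agent.Semistable.Rep.Instance

/-!
# `S58` and `S45` from base models and level lowering

`S58` needs only the base models, `S45` also the two Frey forms of level lowering.
-/

set_option autoImplicit false

open WeierstrassCurve

namespace FLTAgent.Wiring

/-- The input on inertia at squares from base models. -/
theorem newformRamifiedAtSquare_of_baseModel
    (hbase : ∀ q : ℕ, ∀ [Fact q.Prime], LevelSq.BaseModelAt q) :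
    LevelDrop.NewformRamifiedAtSquare :=
  LevelSq.newformRamifiedAtSquare GalRep.specializationsExist
    (LevelSq.geometrySq_of_baseModel hbase)

/-- The statement of `S58` from base models. -/
theorem levelDescent_of_baseModel (hbase : ∀ q : ℕ, ∀ [Fact q.Prime], LevelSq.BaseModelAt q)
    (W : WeierstrassCurve ℤ) (hss : W.IsSemistableModel) (N : ℕ)
    (p : ℕ) [Fact p.Prime] (hp2 : p ≠ 2) (hirr : W.ModRepIsIrreducible p)
    (hp2N : ¬ p ^ 2 ∣ N)
    (hN : W.IsModularModelOfLevel N) (hbad : ∀ ℓ : ℕ, ℓ.Prime → (ℓ : ℤ) ∣ W.Δ → ℓ ∣ N)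
    (hN3 : ∀ q : ℕ, q.Prime → ¬ q ^ 3 ∣ N) :
    W.IsModularModelOfLevel W.conductorLevel :=
  LevelDrop.levelDescent Semistable.newformSpecialCharpoly_holds
    (newformRamifiedAtSquare_of_baseModel hbase) W hss N p hp2 hirr hp2N hN hbad hN3

/-- The statement of `S45` from base models and the Frey forms of level lowering. -/
theorem levelTwo_of_baseModel (P : FreyPackage)
    (hbase : ∀ q : ℕ, ∀ [Fact q.Prime], RT.Carayol.BaseModelExists q)
    (h43 : FreyLowerAwayFromP P) (h44 : FreyLowerAtP P) (hmod : P.freyCurve.IsModular)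
    (hirr : Affine.Point.GaloisRepIsIrreducible (K := AlgebraicClosure ℚ) ℚ P.freyCurve P.p) :
    ∃ f : CuspForm (CongruenceSubgroup.Gamma0 2) 2, f ≠ 0 := by
  obtain ⟨M, h0, hsf, hsupp, hmM⟩ := exists_squarefree_level_of_baseModel
    (Frey.isIntegralModelOf P) (Frey.freyCurveInt_Δ_ne_zero P)
    (Frey.freyCurveInt_isSemistableModel P) Semistable.newformSpecialCharpoly_holds hbase hmod
  exact exists_form_of_frey_lowering P hirr h43 h44
    (isConductorLevel_of_dvd_conductor P h0 hsf hsupp)
    (modularRepOfLevel_of_isResiduallyModularOfLevel P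
      (isResiduallyModularOfLevel_of_isModularModelOfLevel _ P.pp hmM))

end FLTAgent.Wiring
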