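import Fermat.Agent.Char.Semistable
import Fermat.Agent.LevelDrop.Residual
import Fermat.Agent.LevelDrop.PointBound
import Fermat.Agent.Frobenius.Places

/-!
# `W[p]` is irreducible for large `p`

A reducible semistable `W[p]` has a trivial sub or quotient, so every Frobenius has eigenvalue one
and `a_ℓ ≡ ℓ + 1 (mod p)`; one good prime `ℓ` then bounds `p`.
-/

set_option autoImplicit false
set_option linter.style.haveILetI false

noncomputable section

open Polynomial WeierstrassCurve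

namespace FLTAgent.Wiring

variable {W : WeierstrassCurve ℤ}

/-- A reducible semistable `W[p]` has the traces of `1 ⊕ ω`. -/
theorem apOfModel_eq_of_not_irreducible (hΔ : W.Δ ≠ 0) (hss : W.IsSemistableModel) {p : ℕ}
    [Fact p.Prime] (hp2 : p ≠ 2) (hred : ¬ W.ModRepIsIrreducible p) {ℓ : ℕ} (hℓ : ℓ.Prime)
    (hgood : W.IsGoodPrimeFor ℓ) (hℓp : ℓ ≠ p) : (W.apOfModel ℓ : ZMod p) = (ℓ : ZMod p) + 1 := by
  obtain ⟨A, σ, hA, hσ⟩ := Frobenius.exists_liesOverPrime_isFrobeniusAt hℓ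
  set R := LevelDrop.torsRep hΔ p with hR
  haveI : Nontrivial R.V := Module.nontrivial_of_finrank_eq_succ R.finrank_eq
  haveI : FiniteDimensional (ZMod p) R.V := Module.finite_of_finrank_eq_succ R.finrank_eq
  obtain ⟨N, hN, hbot, htop⟩ : ∃ N : Submodule (ZMod p)
      (Submodule.torsionBy ℤ ((W.map (Int.castRingHom ℚ))⁄(AlgebraicClosure ℚ)).toAffine.Point p),
      Affine.Point.IsGaloisStable ℚ N ∧ N ≠ ⊥ ∧ N ≠ ⊤ := by
    by_contra hc
    push Not at hc
    exact hred ⟨‹Nontrivial R.V›, fun N hN => or_iff_not_imp_left.2 (hc N hN)⟩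
  set f : R.V →ₗ[ZMod p] R.V := R.ρ σ
  obtain ⟨x, hx0, hx⟩ : ∃ x : R.V, x ≠ 0 ∧ f x = x := by
    rcases GalChar.sub_trivial_or_quot_trivial W hΔ hss hp2 N hN hbot htop with h | h
    · obtain ⟨x, hx, hx0⟩ := N.ne_bot_iff.1 hbot
      exact ⟨x, hx0, h σ x hx⟩
    · by_contra hc
      push Not at hc
      have hinj : Function.Injective (f - 1 : R.V →ₗ[ZMod p] R.V) := by
        refine LinearMap.ker_eq_bot.1 (LinearMap.ker_eq_bot'.2 fun x hx => ?_)
        by_contra h0
        exact hc x h0 (sub_eq_zero.1 hx)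
      refine htop (eq_top_iff.2 fun y _ => ?_)
      obtain ⟨x, rfl⟩ := LinearMap.injective_iff_surjective.1 hinj y
      exact h σ x
  have hev : Module.End.HasEigenvalue f 1 :=
    Module.End.hasEigenvalue_of_hasEigenvector (x := x)
      ⟨Module.End.mem_eigenspace_iff.2 (by rw [one_smul]; exact hx), hx0⟩
  have hroot := (Module.End.hasEigenvalue_iff_isRoot_charpoly f 1).1 hev
  rw [LevelDrop.charpoly_torsRep_frobenius hΔ p hℓ hgood hℓp A hA σ hσ] at hroot
  simp only [IsRoot.def, eval_add, eval_sub, eval_pow, eval_X, eval_mul, eval_C, one_pow,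
    mul_one] at hroot
  linear_combination -hroot

/-- **`W[p]` is irreducible for all large primes `p`.** -/
theorem exists_bound_irreducible (hΔ : W.Δ ≠ 0) (hss : W.IsSemistableModel) :
    ∃ B : ℕ, ∀ p : ℕ, p.Prime → B ≤ p → W.ModRepIsIrreducible p := by
  obtain ⟨ℓ, hℓ, hℓP⟩ := Nat.exists_infinite_primes (W.Δ.natAbs + 1)
  refine ⟨2 * ℓ + 3, fun p hp hBp => ?_⟩
  by_contra hred
  haveI : Fact p.Prime := ⟨hp⟩
  have hgood : W.IsGoodPrimeFor ℓ := fun h => by
    have := Nat.le_of_dvd (Int.natAbs_pos.2 hΔ) (Int.natCast_dvd.1 h)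
    omega
  have h := apOfModel_eq_of_not_irreducible hΔ hss (by omega) hred hℓP hgood (by omega)
  have h' : (((W.apOfModel ℓ - (ℓ + 1) : ℤ)) : ZMod p) = 0 := by push_cast; rw [h]; ring
  rw [ZMod.intCast_zmod_eq_zero_iff_dvd] at h'
  obtain ⟨hl, hu⟩ := abs_le.1 (LevelDrop.abs_apOfModel_le W hℓP)
  have h0 : W.apOfModel ℓ - (ℓ + 1) = 0 :=
    Int.eq_zero_of_abs_lt_dvd h' (by rw [abs_lt]; constructor <;> omega)
  omega

end FLTAgent.Wiring
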