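import Fermat.Agent.Reduction.VariableChange
import Fermat.Agent.WeilPairing.FrobeniusTrace
import Fermat.Agent.Frobenius.Places

/-!
# Two integral models of one curve have the same `a_ℓ` at common good primes
-/

set_option autoImplicit false

noncomputable section

open scoped WeierstrassCurve.Affine
open WeierstrassCurve
open WeierstrassCurve.Affine (Point)

namespace FLTAgent.Wiring

open FLTAgent.Reduction (vcX vcY vcEquiv)

local notation "Qb" => AlgebraicClosure ℚ

/-- A change of variables over `ℚ` gives an equivariant isomorphism on `ℚ̄`-points. -/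
theorem exists_equivariant_equiv (V U : WeierstrassCurve ℚ) (C : VariableChange ℚ) (h : C • V = U) :
    ∃ e : (V⁄Qb).Point ≃+ (U⁄Qb).Point,
      ∀ (σ : Qb ≃ₐ[ℚ] Qb) (P : (V⁄Qb).Point), e (σ • P) = σ • e P := by
  set D : VariableChange Qb := C.map (algebraMap ℚ Qb)
  have hU : U⁄Qb = D • (V⁄Qb) := by
    rw [← h]
    exact (WeierstrassCurve.map_variableChange V C (algebraMap ℚ Qb)).symm
  have key : ∀ (T : WeierstrassCurve Qb), T = D • (V⁄Qb) →
      ∃ e : (V⁄Qb).Point ≃+ T.toAffine.Point, ∀ (x y : Qb)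
        (hxy : (V⁄Qb).toAffine.Nonsingular x y),
        ∃ h', e (.some x y hxy) = .some (vcX D x) (vcY D x y) h' := by
    rintro T rfl
    exact ⟨vcEquiv D (V⁄Qb), fun x y hxy => ⟨_, Reduction.vcEquiv_some D (V⁄Qb) hxy⟩⟩
  obtain ⟨e, he⟩ := key _ hU
  refine ⟨e, fun σ P => ?_⟩
  rcases P with _ | ⟨x, y, hxy⟩
  · exact (map_zero e).trans ((congrArg (σ • ·) (map_zero e)).trans (smul_zero (A := (U⁄Qb).Point) σ)).symm
  obtain ⟨h₁, e₁⟩ := he _ _ ((Affine.baseChange_nonsingular (W := V.toAffine) (f := σ.toAlgHom)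
    σ.injective x y).2 hxy)
  obtain ⟨h₂, e₂⟩ := he x y hxy
  rw [Point.algEquiv_smul_def, Point.map_some, e₁, e₂, Point.algEquiv_smul_def, Point.map_some]
  simp only [Point.some.injEq]
  constructor <;>
    simp [D, vcX, vcY, VariableChange.map, Units.val_inv_eq_inv_val]

/-- The Frobenius traces of two isomorphic curves agree. -/
theorem galoisTrace_eq_of_equiv {V U : WeierstrassCurve ℚ} (e : (V⁄Qb).Point ≃+ (U⁄Qb).Point)
    (he : ∀ (σ : Qb ≃ₐ[ℚ] Qb) (P : (V⁄Qb).Point), e (σ • P) = σ • e P) (p : ℕ)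
    (σ : Qb ≃ₐ[ℚ] Qb) :
    Point.galoisTrace ℚ (K := Qb) V p σ = Point.galoisTrace ℚ (K := Qb) U p σ := by
  have hmem : ∀ P : (V⁄Qb).Point, P ∈ Submodule.torsionBy ℤ (V⁄Qb).Point (p : ℤ) ↔
      e P ∈ Submodule.torsionBy ℤ (U⁄Qb).Point (p : ℤ) := fun P => by
    rw [Submodule.mem_torsionBy_iff, Submodule.mem_torsionBy_iff, ← map_zsmul,
      EmbeddingLike.map_eq_zero_iff]
  let f : Submodule.torsionBy ℤ (V⁄Qb).Point (p : ℤ) →+
      Submodule.torsionBy ℤ (U⁄Qb).Point (p : ℤ) :=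
    { toFun := fun x => ⟨e x.1, (hmem _).1 x.2⟩
      map_zero' := Subtype.ext (map_zero e)
      map_add' := fun x y => Subtype.ext (map_add e x.1 y.1) }
  let el : Submodule.torsionBy ℤ (V⁄Qb).Point (p : ℤ) ≃ₗ[ZMod p]
      Submodule.torsionBy ℤ (U⁄Qb).Point (p : ℤ) :=
    LinearEquiv.ofBijective (f.toZModLinearMap p)
      ⟨fun x y hxy => Subtype.ext (e.injective (congrArg Subtype.val hxy)), fun y =>
        ⟨⟨e.symm y.1, (hmem _).2 (by rw [AddEquiv.apply_symm_apply]; exact y.2)⟩,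
          Subtype.ext (e.apply_symm_apply _)⟩⟩
  rw [Point.galoisTrace_def, Point.galoisTrace_def,
    ← LinearMap.trace_conj' (Point.galoisRepModuleEnd ℚ V p σ) el]
  congr 1
  refine LinearMap.ext fun y => ?_
  simp only [LinearEquiv.conj_apply, LinearMap.coe_comp, Function.comp_apply,
    LinearEquiv.coe_coe, Point.galoisRepModuleEnd_apply]
  refine Subtype.ext ?_
  have h1 : e (el.symm y).1 = y.1 := congrArg Subtype.val (el.apply_symm_apply y)
  exact (he σ _).trans (congrArg (σ • ·) h1)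

/-- Integral models of one curve have the same `a_ℓ` at their common good primes. -/
theorem apOfModel_eq_of_models {E : WeierstrassCurve ℚ} {W W' : WeierstrassCurve ℤ}
    (h : W.IsIntegralModelOf E) (h' : W'.IsIntegralModelOf E) {l : ℕ} (hl : l.Prime)
    (hW : W.IsGoodPrimeFor l) (hW' : W'.IsGoodPrimeFor l) : W.apOfModel l = W'.apOfModel l := by
  obtain ⟨C, hC⟩ := h
  obtain ⟨C', hC'⟩ := h'
  obtain ⟨e, he⟩ := exists_equivariant_equiv (W.map (Int.castRingHom ℚ))
    (W'.map (Int.castRingHom ℚ)) (C' * C⁻¹) (by rw [← hC, ← hC', mul_smul, inv_smul_smul])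
  obtain ⟨A, σ, hA, hσ⟩ := Frobenius.exists_liesOverPrime_isFrobeniusAt hl
  obtain ⟨p, hp, hpp⟩ :=
    Nat.exists_infinite_primes ((W'.apOfModel l - W.apOfModel l).natAbs + l + 1)
  have : Fact p.Prime := ⟨hpp⟩
  have hne : l ≠ p := by omega
  have e1 := WeilPairing.galoisTrace_frobenius (W := W) (p := p) hl hW hne A hA σ hσ
  rw [galoisTrace_eq_of_equiv e he p σ,
    WeilPairing.galoisTrace_frobenius (W := W') (p := p) hl hW' hne A hA σ hσ,
    ZMod.intCast_eq_intCast_iff_dvd_sub] at e1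
  by_contra hab
  have h1 := Nat.le_of_dvd (Int.natAbs_pos.2 (sub_ne_zero.2 hab)) (Int.natCast_dvd.1 e1)
  omega

end FLTAgent.Wiring
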