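import Fermat.Agent.Wiring.Root
import Fermat.Agent.S51
import Fermat.Agent.S52

/-!
# Modularity of semistable curves from modularity lifting and residual modularity modulo three

The two inputs are hypotheses with the shapes of `S59` and of the output of the
Langlands-Tunnell route after level adjustment.
-/

set_option autoImplicit false

namespace FLTAgent.Wiring

open WeierstrassCurve WeierstrassCurve.Affine.Point CuspForm

/-- The shape of statement `S59`. -/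
def LiftingThreeFive : Prop :=
  ∀ (p : ℕ), p = 3 ∨ p = 5 → ∀ (W : WeierstrassCurve ℤ), W.Δ ≠ 0 → W.IsSemistableModel →
    W.ModRepIsIrreducible p → ∀ (M₀ : ℕ) [NeZero M₀], W.IsResiduallyModularOfLevel p M₀ →
    ¬ p ^ 2 ∣ M₀ → (∀ q : ℕ, q.Prime → q ≠ p → ¬ q ^ 3 ∣ M₀) →
    Mlc1IsModularModelOfExactConductorLevel W

/-- Residual modularity modulo three at a level that `S59` accepts. -/
def ResidualThree : Prop :=
  ∀ (W : WeierstrassCurve ℤ), W.Δ ≠ 0 → W.IsSemistableModel → W.ModRepIsIrreducible 3 →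
    ∃ M : ℕ, 0 < M ∧ ¬ 3 ^ 2 ∣ M ∧ (∀ q : ℕ, q.Prime → q ≠ 3 → ¬ q ^ 3 ∣ M) ∧
      W.IsResiduallyModularOfLevel 3 M

/-- A congruence of traces modulo `p` transports residual modularity. -/
theorem isResiduallyModularOfLevel_of_congr {W W' : WeierstrassCurve ℤ} {p N : ℕ} (hp : p.Prime)
    (hgood : ∀ ℓ : ℕ, ℓ.Prime → ¬ ℓ ∣ N → W'.IsGoodPrimeFor ℓ)
    (hmod : W'.IsModularModelOfLevel N)
    (hcong : ∀ ℓ : ℕ, ℓ.Prime → W.IsGoodPrimeFor ℓ → W'.IsGoodPrimeFor ℓ → ℓ ≠ p →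
      (p : ℤ) ∣ W'.apOfModel ℓ - W.apOfModel ℓ) :
    W.IsResiduallyModularOfLevel p N := by
  obtain ⟨f, hf, ha⟩ := hmod
  obtain ⟨𝔪, h𝔪, hpm⟩ := FLTPrelim.exists_maximalIdeal_natCast_prime_mem hp
  refine ⟨f, 𝔪, hf, h𝔪, hpm, fun ℓ hℓ hg hN hℓp =>
    ⟨((W'.apOfModel ℓ : ℤ) : integralClosure ℤ ℂ), ?_, ?_⟩⟩
  · rw [ha ℓ hℓ (hgood ℓ hℓ hN) hN]; rfl
  · obtain ⟨t, ht⟩ := hcong ℓ hℓ hg (hgood ℓ hℓ hN) hℓp
    rw [← Int.cast_sub, ht, Int.cast_mul, Int.cast_natCast]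
    exact 𝔪.mul_mem_right _ hpm

/-- Modularity at the exact conductor level of every semistable curve. -/
theorem exactLevel_of_semistable (h59 : LiftingThreeFive) (h3 : ResidualThree)
    (W : WeierstrassCurve ℤ) (hΔ : W.Δ ≠ 0) (hW : W.IsSemistableModel) :
    Mlc1IsModularModelOfExactConductorLevel W := by
  have three : ∀ V : WeierstrassCurve ℤ, V.Δ ≠ 0 → V.IsSemistableModel →
      V.ModRepIsIrreducible 3 → Mlc1IsModularModelOfExactConductorLevel V := by
    intro V hV hVs hV3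
    obtain ⟨M, hM, h9, hq3, hres⟩ := h3 V hV hVs hV3
    have : NeZero M := ⟨hM.ne'⟩
    exact h59 3 (Or.inl rfl) V hV hVs hV3 M hres h9 hq3
  by_cases hirr3 : W.ModRepIsIrreducible 3
  · exact three W hΔ hW hirr3
  · have hirr5 : W.ModRepIsIrreducible 5 :=
      (Fermat.Agent.S51.result W hΔ hW).resolve_left hirr3
    obtain ⟨W', hΔ', hW', h3', hcong⟩ := Fermat.Agent.S52.result W hΔ hW hirr5
    obtain ⟨N, hN0, hNsq, hiff, hmod⟩ := three W' hΔ' hW' h3'
    have : NeZero N := ⟨hN0.ne'⟩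
    have hgood : ∀ ℓ : ℕ, ℓ.Prime → ¬ ℓ ∣ N → W'.IsGoodPrimeFor ℓ := fun ℓ hℓ hlN hd =>
      hlN ((hiff ℓ hℓ).2 hd)
    have hsq : ∀ q : ℕ, q.Prime → ¬ q ^ 2 ∣ N := fun q hq h =>
      hq.not_isUnit (hNsq q (by rwa [← pow_two]))
    refine h59 5 (Or.inr rfl) W hΔ hW hirr5 N
      (isResiduallyModularOfLevel_of_congr Nat.prime_five hgood hmod hcong) (hsq 5 Nat.prime_five)
      fun q hq _ h => hsq q hq ((pow_dvd_pow q (by decide)).trans h)

/-- The shape of `S60`. -/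
theorem isModular_of_semistable (h59 : LiftingThreeFive) (h3 : ResidualThree)
    (W : WeierstrassCurve ℤ) (hΔ : W.Δ ≠ 0) (hW : W.IsSemistableModel) :
    (W.map (Int.castRingHom ℚ)).IsModular := by
  obtain ⟨N, hN0, -, -, hmod⟩ := exactLevel_of_semistable h59 h3 W hΔ hW
  exact ⟨W, ⟨1, one_smul _ _⟩, N, hN0, hmod⟩

/-- The shape of `S04`. -/
theorem frey_isModular (h59 : LiftingThreeFive) (h3 : ResidualThree) (P : FreyPackage) :
    P.freyCurve.IsModular := by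
  have h := isModular_of_semistable h59 h3 P.freyCurveInt (Frey.freyCurveInt_Δ_ne_zero P)
    (Frey.freyCurveInt_isSemistableModel P)
  rwa [Frey.freyCurveInt_map] at h

/-- The shape of `S06`. -/
theorem frey_modularRep (h59 : LiftingThreeFive) (h3 : ResidualThree) (P : FreyPackage) :
    ∃ N : ℕ, P.IsConductorLevel N ∧ P.ModularRepOfLevel N :=
  exists_modularRepOfLevel P (exactLevel_of_semistable h59 h3 _
    (Frey.freyCurveInt_Δ_ne_zero P) (Frey.freyCurveInt_isSemistableModel P))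

/-- The shape of `S01`. -/
theorem fermat_of_inputs (h59 : LiftingThreeFive) (h3 : ResidualThree)
    (h09 : ∀ P : FreyPackage,
      GaloisRepIsIrreducible (K := AlgebraicClosure ℚ) ℚ P.freyCurve P.p)
    (h45 : ∀ P : FreyPackage,
      GaloisRepIsIrreducible (K := AlgebraicClosure ℚ) ℚ P.freyCurve P.p →
      Mlc1IsModularModelOfExactConductorLevel P.freyCurveInt →
      ∃ f : CuspForm (CongruenceSubgroup.Gamma0 2) 2, f ≠ 0)
    (n : ℕ) (hn : 3 ≤ n) (a b c : ℕ) (ha : 0 < a) (hb : 0 < b) (hc : 0 < c) :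
    a ^ n + b ^ n ≠ c ^ n :=
  fermat_of_noFreyPackage (fun P => freyPackage_false_of_levelTwo P (h45 P (h09 P)
    (exactLevel_of_semistable h59 h3 _ (Frey.freyCurveInt_Δ_ne_zero P)
      (Frey.freyCurveInt_isSemistableModel P)))) n hn a b c ha hb hc

end FLTAgent.Wiring
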