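import Fermat.Agent.Wiring.FreyModular
import Fermat.Agent.LT.Adjoint.Main
import Fermat.Agent.LT.Asai.Main
import Fermat.Agent.LT.OctaOfCurve
import Fermat.Agent.LT.Exit.WeightTwo
import Fermat.Agent.LT.Theta31.ThetaLift
import Fermat.Agent.LT.Theta31.Nonvanish
import Fermat.Agent.RT.Carayol.BaseInst
import Fermat.Agent.LevelThree.NoTwist

/-!
# Residual modularity modulo three at curves non-split at three

Langlands-Tunnell gives some level; the exponents away from three come down to one, the exponent
at three comes down to one up to a cyclotomic twist, and the twist does not occur at curves which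
are supersingular or très ramifié at three.
-/

set_option autoImplicit false

namespace FLTAgent.Wiring

open WeierstrassCurve

/-- From some residual level to one which the lifting theorem accepts. -/
theorem exists_level_of_residual {W : WeierstrassCurve ℤ} (hΔ : W.Δ ≠ 0)
    (hW : W.IsSemistableModel) (hirr : W.ModRepIsIrreducible 3) (hns : Switch3.NonsplitAtThree W)
    {N : ℕ} (hN : 0 < N) (hres : W.IsResiduallyModularOfLevel 3 N) :
    ∃ M : ℕ, 0 < M ∧ ¬ 3 ^ 2 ∣ M ∧ (∀ q : ℕ, q.Prime → q ≠ 3 → ¬ q ^ 3 ∣ M) ∧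
      W.IsResiduallyModularOfLevel 3 M := by
  have : Fact (Nat.Prime 3) := ⟨Nat.prime_three⟩
  obtain ⟨M', hM', hle, -, hres'⟩ :=
    RT.Carayol.exists_lowerPow_le_one_inst hΔ hW (by norm_num) hirr hN hres
  obtain ⟨k, M₀, hM₀, rfl⟩ := Nat.exists_eq_pow_mul_and_not_dvd hM'.ne' 3 (by norm_num)
  have : NeZero M₀ := ⟨fun h => hM₀ (h ▸ dvd_zero 3)⟩
  have hres3 : W.IsResiduallyModularOfLevel 3 (3 * M₀) :=
    (LevelThree.residual_or_twist_levelThree hΔ hW hirr hM₀ hres').resolve_right
      (LevelThree.not_isTwistModularOfLevel hΔ hW hirr hns hM₀)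
  refine ⟨3 * M₀, Nat.mul_pos (by norm_num) (NeZero.pos M₀), fun h => hM₀ ?_,
    fun q hq hq3 h => ?_, hres3⟩
  · rw [pow_two] at h
    exact Nat.dvd_of_mul_dvd_mul_left (by norm_num) h
  · have hcop : Nat.Coprime (q ^ 3) 3 :=
      ((Nat.coprime_primes hq Nat.prime_three).2 hq3).pow_left 3
    have hd : q ^ 3 ∣ 3 ^ k * M₀ := (hcop.dvd_of_dvd_mul_left h).mul_left _
    have := (hq.pow_dvd_iff_le_factorization hM'.ne').1 hd
    have := hle q hq3
    omega

/-- Residual modularity modulo three, from the weight one conclusion of Langlands-Tunnell. -/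
theorem residualThreeNonsplit_of_ltConclusion (hLT : ∀ d : LT.Octa, LT.LTConclusion d) :
    ResidualThreeNonsplit := fun W hΔ hW hirr hns => by
  obtain ⟨N, hN, -, hres⟩ := LT.Exit.isResiduallyModular_of_ltConclusion
    (LT.octaOfCurve hΔ hW hirr) (hLT _) W fun ℓ hℓ hgood hℓ3 A hA σ hσ =>
      LT.octaOfCurve_trace hΔ hW hirr ℓ hℓ hgood hℓ3 A hA σ hσ
  exact exists_level_of_residual hΔ hW hirr hns hN hres

/-- Residual modularity modulo three, from the cubic descent of Langlands-Tunnell. -/
theorem residualThreeNonsplit_of_pieces (hB : ∀ d : LT.Octa, LT.CubicDescent d) :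
    ResidualThreeNonsplit :=
  residualThreeNonsplit_of_ltConclusion fun d =>
    LT.lt_conclusion (hB d) (LT.asaiPeriod d)
      (LT.Theta31.thetaLift_of_liftNonzero d LT.Theta31.liftNonzero) (LT.adjointMatch d)

end FLTAgent.Wiring
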