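import Fermat.Agent.Wiring.FreyDescent
import Fermat.Agent.S02
import Fermat.Agent.S07
import Mathlib.NumberTheory.FLT.Three
import Mathlib.NumberTheory.FLT.Four

/-!
# Fermat's Last Theorem from the absence of Frey packages
-/

set_option autoImplicit false

namespace FLTAgent.Wiring

open WeierstrassCurve.Affine.Point

/-- `S03` from irreducibility (`S09`), level lowering and modularity of exact conductor level. -/
theorem freyPackage_false (P : FreyPackage) (h38 : LowerAwayFromP) (h39 : LowerAtP)
    (hirr : GaloisRepIsIrreducible (K := AlgebraicClosure ℚ) ℚ P.freyCurve P.p)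
    (hmod : Mlc1IsModularModelOfExactConductorLevel P.freyCurveInt) : False := by
  obtain ⟨f, hf⟩ := levelTwo_of_exact_level P hirr h38 h39 hmod
  exact hf (Fermat.Agent.S07.result f)

/-- `S03` from irreducibility, `S45` and modularity. -/
theorem freyPackage_false_of_levelTwo (P : FreyPackage)
    (h45 : ∃ f : CuspForm (CongruenceSubgroup.Gamma0 2) 2, f ≠ 0) : False := by
  obtain ⟨f, hf⟩ := h45
  exact hf (Fermat.Agent.S07.result f)

/-- `S01` from `S03`. -/
theorem fermat_of_noFreyPackage (h03 : FreyPackage → False) (n : ℕ) (hn : 3 ≤ n) (a b c : ℕ)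
    (ha : 0 < a) (hb : 0 < b) (hc : 0 < c) : a ^ n + b ^ n ≠ c ^ n := by
  have h : FermatLastTheorem := by
    refine FermatLastTheorem.of_odd_primes fun p hp hodd => ?_
    rcases eq_or_ne p 3 with rfl | h3
    · exact fermatLastTheoremThree
    have hp5 : 5 ≤ p := by
      rcases hodd with ⟨k, rfl⟩
      have := hp.two_le
      omega
    rw [fermatLastTheoremFor_iff_int]
    intro a b c ha hb hc H
    obtain ⟨P⟩ := Fermat.Agent.S02.result a b c ha hb hc p hp hp5 H
    exact h03 P
  exact h n hn a b c ha.ne' hb.ne' hc.ne'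

end FLTAgent.Wiring
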