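import Fermat.Agent.Wiring.FreyDescent
import Fermat.Agent.Wiring.ModelCompare
import Fermat.Agent.LevelDrop.Core
import Fermat.Agent.LevelSq.RepStep

/-!
# Level two from any modular parametrisation of the Frey curve

A modular semistable curve is modular at a squarefree level supported at its bad primes.  The inputs
are `S35`, the non-unipotence of inertia at primes whose square divides the level of a newform, and
level lowering.  No irreducibility is used before level lowering.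
-/

set_option autoImplicit false

open WeierstrassCurve Polynomial

namespace FLTAgent.Wiring

local notation "Qbar" => AlgebraicClosure ℚ
local notation "Γℚ" => AlgebraicClosure ℚ ≃ₐ[ℚ] AlgebraicClosure ℚ

/-- An attached representation is not unipotent at the primes with exponent in `s` in the level. -/
def NewformNotUnipotentAt (s : ℕ → Prop) : Prop :=
  ∀ {M : ℕ} [NeZero M] {g : CuspForm (CongruenceSubgroup.Gamma0 M) 2}, g.IsNewform →
    ∀ (lam : ℕ) [Fact lam.Prime] (S : Finset ℕ) (R : Type) [CommRing R] [IsDomain R]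
      [IsDiscreteValuationRing R] [IsAdicComplete (IsLocalRing.maximalIdeal R) R]
      [Finite (IsLocalRing.ResidueField R)] [CharZero R],
      (lam : R) ∈ IsLocalRing.maximalIdeal R →
    ∀ (chig : CuspForm.heckeAlgebra M 2 (↑S : Set ℕ) →+* ℂ),
      (∀ (ℓ : ℕ) (hℓ : ℓ.Prime) (hℓM : ¬ ℓ ∣ M) (hℓS : ℓ ∉ (↑S : Set ℕ)),
        chig (CuspForm.heckeAlgebra.T hℓ hℓM hℓS) = ModularFormClass.qCoeff g ℓ) →
    ∀ (iota : chig.range →+* R), lam ∈ S → (∀ r : ℕ, r.Prime → r ∣ M → r ∈ S) →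
    ∀ ρ : GaloisRepAdic R,
      (∀ (ℓ : ℕ) (hℓ : ℓ.Prime) (hℓM : ¬ ℓ ∣ M) (hℓS : ℓ ∉ (↑S : Set ℕ)),
        ∀ A : ValuationSubring Qbar, A.LiesOverPrime ℓ → ∀ σ : Γℚ, A.IsFrobeniusAt σ ℓ →
          LinearMap.charpoly (ρ.ρ σ) = X ^ 2 -
            C ((iota.comp chig.rangeRestrict) (CuspForm.heckeAlgebra.T hℓ hℓM hℓS)) * X +
              C ((ℓ : R))) →
    ∀ q : ℕ, q.Prime → q ≠ lam → s (M.factorization q) → ¬ ρ.IsUnipotentOnInertiaAt q

theorem notUnipotentAt_two (hspec : GalRep.SpecializationsExist) (hgeom : LevelSq.GeometrySq) :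
    NewformNotUnipotentAt (· = 2) := by
  intro M _ g hg lam _ S R _ _ _ _ _ _ hlam chig hchig iota hlamS hMS ρ hρ q hq hne hfac
  exact LevelSq.not_isUnipotentOnInertiaAt hspec hgeom hg hlamS hMS hlam chig hchig iota ρ hρ hq
    hne hfac

theorem notUnipotentAt_ge_two (h2 : NewformNotUnipotentAt (· = 2))
    (h3 : NewformNotUnipotentAt (3 ≤ ·)) : NewformNotUnipotentAt (2 ≤ ·) := by
  intro M _ g hg lam _ S R _ _ _ _ _ _ hlam chig hchig iota hlamS hMS ρ hρ q hq hne hfac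
  rcases (show 2 ≤ M.factorization q from hfac).eq_or_lt with h | h
  · exact h2 hg lam S R hlam chig hchig iota hlamS hMS ρ hρ q hq hne h.symm
  · exact h3 hg lam S R hlam chig hchig iota hlamS hMS ρ hρ q hq hne h

/-- A newform with the `a_ℓ` of a semistable curve has no square in its level. -/
theorem not_sq_dvd_level {W : WeierstrassCurve ℤ} (hΔ : W.Δ ≠ 0) (hss : W.IsSemistableModel)
    (hd : GalRep.FrobeniusDense) (h35 : LevelDrop.NewformSpecialCharpoly)
    (hsq : NewformNotUnipotentAt (2 ≤ ·)) {N M : ℕ} [NeZero M]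
    {g : CuspForm (CongruenceSubgroup.Gamma0 M) 2}
    (hgN : ∀ ℓ : ℕ, ℓ.Prime → W.IsGoodPrimeFor ℓ → ¬ ℓ ∣ N →
      ModularFormClass.qCoeff g ℓ = (W.apOfModel ℓ : ℂ))
    (hMN : M ∣ N) (hN0 : N ≠ 0) (hbad : ∀ ℓ : ℕ, ℓ.Prime → (ℓ : ℤ) ∣ W.Δ → ℓ ∣ N)
    (hg : g.IsNewform) (q : ℕ) (hq : q.Prime) : ¬ q ^ 2 ∣ M := by
  intro hq2
  obtain ⟨lam, hlamP, hne⟩ : ∃ lam : ℕ, lam.Prime ∧ q ≠ lam := by
    rcases eq_or_ne q 2 with h | h
    · exact ⟨3, Nat.prime_three, by omega⟩
    · exact ⟨2, Nat.prime_two, h⟩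
  have : Fact lam.Prime := ⟨hlamP⟩
  have hMS : ∀ r : ℕ, r.Prime → r ∣ M → r ∈ insert lam M.primeFactors := fun r hr hrM =>
    Finset.mem_insert_of_mem (Nat.mem_primeFactors.mpr ⟨hr, hrM, NeZero.ne M⟩)
  obtain ⟨chig, O', _, _, _, _, _, _, iota, hlam, -, hchig⟩ :=
    LevelDrop.exists_coefficient_ring hg.isNormalizedEigenform (insert lam M.primeFactors) lam
  obtain ⟨O'', _, _, _, _, _, _, _, _, hloc, -, ρ, hρ, -⟩ :=
    h35 hg lam (insert lam M.primeFactors) O' hlam chig hchig iota (Finset.mem_insert_self _ _) hMS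
  have hl'' : (lam : O'') ∈ IsLocalRing.maximalIdeal O'' := by
    rw [← map_natCast (algebraMap O' O'')]
    exact fun hu => hlam (hloc.map_nonunit _ hu)
  obtain ⟨ψ, hψ⟩ := LevelDrop.exists_padicBase lam O'' hl''
  refine hsq hg lam _ O'' hl'' chig hchig ((algebraMap O' O'').comp iota)
    (Finset.mem_insert_self _ _) hMS ρ hρ q hq hne
    ((hq.pow_dvd_iff_le_factorization (NeZero.ne M)).mp hq2) fun A hA σ hσ => ?_
  rw [LevelDrop.charpoly_eq_tate hΔ hd lam hψ ρ (insert lam N.primeFactors)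
    (Finset.mem_insert_self _ _)
    (fun r hr hrT => (LevelDrop.outside_insert (M := M) hMN hN0 hbad hr hrT).1)
    (LevelDrop.frobenius_formula hgN hMN hN0 hbad hchig iota ρ
      fun r hr hrM hrS _ => hρ r hr hrM hrS) σ,
    FLTAgent.Tate.isUnipotentOnInertiaAt hΔ lam hss hq hne A hA σ hσ]
  simp only [Polynomial.map_pow, Polynomial.map_sub, Polynomial.map_X, Polynomial.map_one]

/-- A modular semistable model is modular at a squarefree level supported at bad primes. -/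
theorem exists_squarefree_level {E : WeierstrassCurve ℚ} {W : WeierstrassCurve ℤ}
    (hW : W.IsIntegralModelOf E) (hΔ : W.Δ ≠ 0) (hss : W.IsSemistableModel)
    (h35 : LevelDrop.NewformSpecialCharpoly) (hsq : NewformNotUnipotentAt (2 ≤ ·))
    (hmod : E.IsModular) :
    ∃ M : ℕ, 0 < M ∧ Squarefree M ∧ (∀ q : ℕ, q.Prime → q ∣ M → (q : ℤ) ∣ W.Δ) ∧
      W.IsModularModelOfLevel M := by
  obtain ⟨W', hW', N, hN, f, hf, ha⟩ := hmod
  have hΔ' : W'.Δ ≠ 0 := by
    obtain ⟨C, hC⟩ := hW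
    obtain ⟨C', hC'⟩ := hW'
    intro h0
    have hE : E.Δ ≠ 0 := fun e => hΔ (by
      have := congrArg WeierstrassCurve.Δ hC
      simpa [variableChange_Δ, e] using this.symm)
    have := congrArg WeierstrassCurve.Δ hC'
    simp [variableChange_Δ, h0, hE] at this
  obtain ⟨M, g, hMN, hg, hag⟩ := LevelDrop.exists_newform hN.ne' hf
  have : NeZero M := ⟨fun e => hN.ne' (zero_dvd_iff.mp (e ▸ hMN))⟩
  set N' := N * W.Δ.natAbs * W'.Δ.natAbs with hN'
  have hN'0 : N' ≠ 0 := mul_ne_zero (mul_ne_zero hN.ne' (Int.natAbs_ne_zero.2 hΔ))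
    (Int.natAbs_ne_zero.2 hΔ')
  have hMN' : M ∣ N' := (hMN.trans (dvd_mul_right _ _)).trans (dvd_mul_right _ _)
  have hbad : ∀ ℓ : ℕ, ℓ.Prime → (ℓ : ℤ) ∣ W.Δ → ℓ ∣ N' := fun ℓ _ h =>
    dvd_mul_of_dvd_left (dvd_mul_of_dvd_right (Int.natCast_dvd.1 h) _) _
  have hgN : ∀ ℓ : ℕ, ℓ.Prime → W.IsGoodPrimeFor ℓ → ¬ ℓ ∣ N' →
      ModularFormClass.qCoeff g ℓ = (W.apOfModel ℓ : ℂ) := by
    intro ℓ hℓ hgood hℓN
    have hℓN0 : ¬ ℓ ∣ N := fun h => hℓN (dvd_mul_of_dvd_left (dvd_mul_of_dvd_left h _) _)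
    have hgood' : W'.IsGoodPrimeFor ℓ := fun h =>
      hℓN (dvd_mul_of_dvd_right (Int.natCast_dvd.1 h) _)
    rw [hag ℓ hℓ hℓN0, ha ℓ hℓ hgood' hℓN0,
      apOfModel_eq_of_models hW hW' hℓ hgood hgood']
  have hd := LevelDrop.frobeniusDense
  have hsqM := not_sq_dvd_level hΔ hss hd h35 hsq hgN hMN' hN'0 hbad hg
  refine ⟨M, Nat.pos_of_neZero M, Nat.squarefree_iff_prime_squarefree.mpr fun q hq h =>
      hsqM q hq (by rwa [pow_two]),
    fun q hq hqM => LevelDrop.bad_of_dvd hΔ hgN hMN' hN'0 hbad hd hg h35 q hq hqM (hsqM q hq),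
    g, hg.isNormalizedEigenform,
    LevelDrop.qCoeff_eq_of_good hΔ hgN hMN' hN'0 hbad hd hg h35⟩

variable (P : FreyPackage)

/-- The Frey curve, if modular, is modular at a conductor level. -/
theorem exists_conductorLevel (h35 : LevelDrop.NewformSpecialCharpoly)
    (hsq : NewformNotUnipotentAt (2 ≤ ·)) (hmod : P.freyCurve.IsModular) :
    ∃ M : ℕ, P.IsConductorLevel M ∧ P.freyCurveInt.IsModularModelOfLevel M := by
  obtain ⟨M, h0, hsf, hsupp, hM⟩ := exists_squarefree_level (Frey.isIntegralModelOf P)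
    (Frey.freyCurveInt_Δ_ne_zero P) (Frey.freyCurveInt_isSemistableModel P) h35 hsq hmod
  exact ⟨M, isConductorLevel_of_dvd_conductor P h0 hsf hsupp, hM⟩

/-- `S45` from `S35`, non-unipotence at squares, and the Frey forms of level lowering. -/
theorem levelTwo_of_modular_frey (h35 : LevelDrop.NewformSpecialCharpoly)
    (hsq : NewformNotUnipotentAt (2 ≤ ·)) (h43 : FreyLowerAwayFromP P) (h44 : FreyLowerAtP P)
    (hmod : P.freyCurve.IsModular)
    (hirr : Affine.Point.GaloisRepIsIrreducible (K := Qbar) ℚ P.freyCurve P.p) :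
    ∃ f : CuspForm (CongruenceSubgroup.Gamma0 2) 2, f ≠ 0 := by
  obtain ⟨M, hM, hmM⟩ := exists_conductorLevel P h35 hsq hmod
  exact exists_form_of_frey_lowering P hirr h43 h44 hM
    (modularRepOfLevel_of_isResiduallyModularOfLevel P
      (isResiduallyModularOfLevel_of_isModularModelOfLevel _ P.pp hmM))

/-- `S45` from `S35`, non-unipotence at squares, and level lowering for semistable curves. -/
theorem levelTwo_of_modular (h35 : LevelDrop.NewformSpecialCharpoly)
    (hsq : NewformNotUnipotentAt (2 ≤ ·)) (h38 : LowerAwayFromP) (h39 : LowerAtP)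
    (hmod : P.freyCurve.IsModular)
    (hirr : Affine.Point.GaloisRepIsIrreducible (K := Qbar) ℚ P.freyCurve P.p) :
    ∃ f : CuspForm (CongruenceSubgroup.Gamma0 2) 2, f ≠ 0 := by
  obtain ⟨M, hM, hmM⟩ := exists_conductorLevel P h35 hsq hmod
  exact exists_form_of_lowering P hirr h38 h39 hM.squarefree
    (isResiduallyModularOfLevel_of_isModularModelOfLevel _ P.pp hmM)

end FLTAgent.Wiring
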