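import Fermat.Agent.Wiring.IrreducibleLarge
import Fermat.Agent.Wiring.S45Route
import Fermat.Agent.RT.Carayol.Pow.Remove
import Fermat.Agent.LevelPow.Geometry
import Fermat.Agent.LevelDrop.Descent
import Fermat.Agent.IntegralStructure.HeckeFinite

/-!
# A modular semistable curve is modular at a squarefree level

For every large prime `p`, `W[p]` is irreducible and residually modular at a squarefree divisor of
the level.  Eigensystems at these finitely many levels are finite in number, so one of them is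
congruent to `a ℓ (W)` modulo infinitely many primes, hence equal to it.
-/

set_option autoImplicit false
set_option linter.style.haveILetI false

noncomputable section

open WeierstrassCurve CongruenceSubgroup

namespace FLTAgent.Wiring

open FLTAgent.RT.Carayol FLTAgent.LevelSq

local notation "Zc" => integralClosure ℤ ℂ

variable {W : WeierstrassCurve ℤ}

/-- One step down inside the divisors of the level, for `p ≥ 5`. -/
theorem exists_lt_dvd_residual (hΔ : W.Δ ≠ 0) (hss : W.IsSemistableModel) {p : ℕ} [Fact p.Prime]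
    (hp2 : p ≠ 2) (hp3 : p ≠ 3) (hirr : W.ModRepIsIrreducible p)
    (hbase : ∀ q : ℕ, ∀ [Fact q.Prime], q ≠ p → BaseModelExists q) {N q : ℕ} [Fact q.Prime]
    (hN : 0 < N) (hqp : q ≠ p) (hqN : q ^ 2 ∣ N) (hres : W.IsResiduallyModularOfLevel p N) :
    ∃ M : ℕ, M ∣ N ∧ M < N ∧ W.IsResiduallyModularOfLevel p M := by
  have hq : q.Prime := Fact.out
  haveI : NeZero q := ⟨hq.ne_zero⟩
  obtain ⟨L, rfl⟩ : ∃ L, N = L * q * q := by
    obtain ⟨L, hL⟩ := hqN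
    exact ⟨L, by rw [hL]; ring⟩
  haveI : NeZero L := ⟨fun h => by simp [h] at hN⟩
  refine ⟨L * q, dvd_mul_right _ _,
    lt_mul_of_one_lt_right (Nat.pos_of_ne_zero (NeZero.ne _)) hq.one_lt, ?_⟩
  have h2 : (2 : ZMod p) ≠ 0 := fun h => hp2 <| (Nat.prime_dvd_prime_iff_eq Fact.out
    Nat.prime_two).1 ((ZMod.natCast_eq_zero_iff _ _).1 (by exact_mod_cast h))
  have h3 : (3 : ZMod p) ≠ 0 := fun h => hp3 <| (Nat.prime_dvd_prime_iff_eq Fact.out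
    Nat.prime_three).1 ((ZMod.natCast_eq_zero_iff _ _).1 (by exact_mod_cast h))
  let bad : Set ℕ := {ℓ | ℓ = p ∨ ¬ W.IsGoodPrimeFor ℓ}
  let a : ℕ → ZMod p := fun ℓ => (W.apOfModel ℓ : ZMod p)
  have hne : ∀ Q : ℕ, Q ≠ 0 → ∃ ℓ : ℕ, ℓ.Prime ∧ ¬ ℓ ∣ L * q * q ∧ ℓ ∉ bad ∧ (ℓ : ZMod Q) = 1 ∧
      a ℓ ≠ (ℓ : ZMod p) + 1 := fun Q hQ => by
    obtain ⟨ℓ, hℓ, hℓN, hg, hℓp, hℓQ, hne⟩ := exists_notEisenstein hΔ hp2 hirr (L * q * q) hQ
    exact ⟨ℓ, hℓ, hℓN, by simp [bad, hg, hℓp], hℓQ, hne⟩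
  by_cases hqL : q ∣ L
  · obtain ⟨j, M, hqM, hLM⟩ := Nat.exists_eq_pow_mul_and_not_dvd (NeZero.ne L) q hq.ne_one
    rw [mul_comm] at hLM
    have hj : 1 ≤ j := Nat.one_le_iff_ne_zero.2 fun h => hqM (by
      rw [hLM, h, pow_zero, mul_one] at hqL; exact hqL)
    haveI : NeZero M := ⟨fun h => NeZero.ne L (by rw [hLM, h, zero_mul])⟩
    obtain ⟨φ, hφ0, hφ, heig⟩ := exists_balancedPow_class hΔ hss hqp
      (LevelPow.powGeometryExists (hbase q hqp)) hqM hj hLM hres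
    obtain ⟨θ, hθ0, hθ⟩ := exists_eigen_pow h2 bad a hφ0 hφ (fun ℓ hℓ hℓN hb => by
      simp only [bad, Set.mem_ofPred_eq, not_or, not_not] at hb
      exact heig ℓ hℓ hℓN hb.2 hb.1) hne (Or.inl h3)
    exact isResiduallyModularOfLevel_of_coh hΔ hp2 hirr (Or.inl hp3) hθ0
      fun ℓ hℓ hℓL hg hℓp => hθ ℓ hℓ hℓL (by simp [bad, hg, hℓp])
  · obtain ⟨WD⟩ := LevelRaise.exists_wData hq hqL
    obtain ⟨φ, hφ0, hφ, heig⟩ := exists_balanced_class hΔ hss hqp (hbase q hqp) WD hres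
    obtain ⟨θ, hθ0, hθ⟩ := exists_eigen_qLevel h2 WD bad a hφ0 hφ (fun ℓ hℓ hℓN hb => by
      simp only [bad, Set.mem_ofPred_eq, not_or, not_not] at hb
      exact heig ℓ hℓ hℓN hb.2 hb.1) hne (Or.inl h3)
    exact isResiduallyModularOfLevel_of_coh hΔ hp2 hirr (Or.inl hp3) hθ0
      fun ℓ hℓ hℓL hg hℓp => hθ ℓ hℓ hℓL (by simp [bad, hg, hℓp])

/-- For `p ≥ 5` prime to the level, a residual level has a squarefree divisor that is one. -/
theorem exists_squarefree_dvd_residual (hΔ : W.Δ ≠ 0) (hss : W.IsSemistableModel) {p : ℕ}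
    [Fact p.Prime] (hp2 : p ≠ 2) (hp3 : p ≠ 3) (hirr : W.ModRepIsIrreducible p)
    (hbase : ∀ q : ℕ, ∀ [Fact q.Prime], q ≠ p → BaseModelExists q) {N : ℕ}
    (hN : 0 < N) (hpN : ¬ p ∣ N) (hres : W.IsResiduallyModularOfLevel p N) :
    ∃ M : ℕ, M ∣ N ∧ Squarefree M ∧ W.IsResiduallyModularOfLevel p M := by
  induction N using Nat.strong_induction_on with
  | _ N ih =>
    by_cases hsf : Squarefree N
    · exact ⟨N, dvd_rfl, hsf, hres⟩
    · rw [Nat.squarefree_iff_prime_squarefree] at hsf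
      push Not at hsf
      obtain ⟨q, hq, hqq⟩ := hsf
      haveI := Fact.mk hq
      have hqp : q ≠ p := fun e => hpN (e ▸ (dvd_mul_right q q).trans hqq)
      obtain ⟨M, hMN, hlt, hM⟩ := exists_lt_dvd_residual hΔ hss hp2 hp3 hirr hbase hN hqp
        (by rwa [pow_two]) hres
      obtain ⟨M', h1, h2, h3⟩ := ih M hlt (Nat.pos_of_dvd_of_pos hMN hN)
        (fun h => hpN (h.trans hMN)) hM
      exact ⟨M', h1.trans hMN, h2, h3⟩

/-- An algebraic integer in maximal ideals over infinitely many primes is zero. -/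
theorem eq_zero_of_mem_maximal {x : Zc} {T : Set ℕ} (hT : T.Infinite)
    (h : ∀ p ∈ T, p.Prime ∧ ∃ 𝔪 : Ideal Zc, 𝔪.IsMaximal ∧ (p : Zc) ∈ 𝔪 ∧ x ∈ 𝔪) : x = 0 := by
  by_contra hx0
  obtain ⟨c, hc, hc0⟩ := (Submodule.ne_bot_iff _).1 (Ideal.comap_ne_bot_of_integral_mem
    (R := ℤ) (I := Ideal.span {x}) hx0 (Ideal.mem_span_singleton_self x)
    (Algebra.IsIntegral.isIntegral x))
  obtain ⟨p, hpT, hpc⟩ := hT.exists_gt c.natAbs
  obtain ⟨hp, 𝔪, h𝔪, hpm, hxm⟩ := h p hpT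
  have hcm : algebraMap ℤ Zc c ∈ 𝔪 := (Ideal.span_singleton_le_iff_mem _).2 hxm hc
  have hcop : Int.gcd (p : ℤ) c = 1 := by
    rw [Int.gcd, Int.natAbs_natCast]
    exact hp.coprime_iff_not_dvd.2 fun hd =>
      absurd (Nat.le_of_dvd (Int.natAbs_pos.2 hc0) hd) (by omega)
  obtain ⟨u, v, huv⟩ := Int.isCoprime_iff_gcd_eq_one.2 hcop
  refine h𝔪.ne_top ((Ideal.eq_top_iff_one _).2 ?_)
  rw [← map_one (algebraMap ℤ Zc), ← huv, map_add, map_mul, map_mul, map_natCast]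
  exact add_mem (𝔪.mul_mem_left _ hpm) (𝔪.mul_mem_left _ hcm)

/-- A modular semistable model has an eigenform at a squarefree divisor of its level with its
`a ℓ` at the good primes off the level. -/
theorem exists_eigenform_squarefree (hΔ : W.Δ ≠ 0) (hss : W.IsSemistableModel)
    (hbase : ∀ q : ℕ, ∀ [Fact q.Prime], BaseModelExists q) {N : ℕ} (hN : 0 < N)
    (hmod : W.IsModularModelOfLevel N) :
    ∃ (M : ℕ) (f : CuspForm (Gamma0 M) 2), M ∣ N ∧ Squarefree M ∧ f.IsNormalizedEigenform ∧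
      ∀ ℓ : ℕ, ℓ.Prime → W.IsGoodPrimeFor ℓ → ¬ ℓ ∣ N →
        ModularFormClass.qCoeff f ℓ = (W.apOfModel ℓ : ℂ) := by
  classical
  obtain ⟨B, hB⟩ := exists_bound_irreducible hΔ hss
  set Good : Set ℕ := {p | p.Prime ∧ B ≤ p ∧ N + 5 ≤ p} with hGood
  have hGinf : Good.Infinite := Set.infinite_of_forall_exists_gt fun n => by
    obtain ⟨p, hnp, hp⟩ := Nat.exists_infinite_primes (n + B + N + 6)
    exact ⟨p, ⟨hp, by omega, by omega⟩, by omega⟩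
  have hres : ∀ p ∈ Good, ∃ M : ℕ, M ∣ N ∧ Squarefree M ∧ W.IsResiduallyModularOfLevel p M := by
    rintro p ⟨hp, hBp, hNp⟩
    haveI := Fact.mk hp
    exact exists_squarefree_dvd_residual hΔ hss (by omega) (by omega) (hB p hp hBp)
      (fun q _ _ => hbase q) hN
      (fun h => by have := Nat.le_of_dvd hN h; omega)
      (isResiduallyModularOfLevel_of_isModularModelOfLevel W hp hmod)
  -- one level
  obtain ⟨M, hM, hMinf⟩ : ∃ M ∈ N.divisors,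
      {p ∈ Good | Squarefree M ∧ W.IsResiduallyModularOfLevel p M}.Infinite := by
    by_contra hc
    push Not at hc
    refine hGinf (((N.divisors.finite_toSet).biUnion
      (t := fun M => {p ∈ Good | Squarefree M ∧ W.IsResiduallyModularOfLevel p M}) hc).subset
        fun p hp => ?_)
    obtain ⟨M, h1, h2, h3⟩ := hres p hp
    exact Set.mem_biUnion (Finset.mem_coe.2 (Nat.mem_divisors.2 ⟨h1, hN.ne'⟩)) ⟨hp, h2, h3⟩
  obtain ⟨hMN, -⟩ := Nat.mem_divisors.1 hM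
  haveI : NeZero M := ⟨fun h => hN.ne' (zero_dvd_iff.1 (h ▸ hMN))⟩
  have hsf : Squarefree M := by
    obtain ⟨p, hp⟩ := hMinf.nonempty
    exact hp.2.1
  -- one eigensystem
  haveI := IntegralStructure.moduleFinite_heckeAlgebra (N := M) 2 (∅ : Set ℕ)
  haveI := Quick.finite_ringHom_complex (CuspForm.heckeAlgebra M 2 (∅ : Set ℕ))
  set U : (CuspForm.heckeAlgebra M 2 (∅ : Set ℕ) →+* ℂ) → Set ℕ := fun χ =>
    {p ∈ Good | ∃ (f : CuspForm (Gamma0 M) 2) (𝔪 : Ideal Zc) (hf : f.IsNormalizedEigenform),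
      χ = Quick.eigenformChar hf ∅ ∧ 𝔪.IsMaximal ∧ (p : Zc) ∈ 𝔪 ∧
      ∀ ℓ : ℕ, ℓ.Prime → W.IsGoodPrimeFor ℓ → ¬ ℓ ∣ M → ℓ ≠ p → ∃ a : Zc,
        (a : ℂ) = ModularFormClass.qCoeff f ℓ ∧ a - ((W.apOfModel ℓ : ℤ) : Zc) ∈ 𝔪} with hU
  obtain ⟨χ, hχ⟩ : ∃ χ, (U χ).Infinite := by
    by_contra hc
    push Not at hc
    refine hMinf ((Set.finite_iUnion hc).subset fun p hp => ?_)
    obtain ⟨f, 𝔪, hf, h𝔪, hpm, ha⟩ := hp.2.2
    exact Set.mem_iUnion.2 ⟨_, hp.1, f, 𝔪, hf, rfl, h𝔪, hpm, ha⟩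
  obtain ⟨p₀, -, f, -, hf, hχf, -⟩ := hχ.nonempty
  refine ⟨M, f, hMN, hsf, hf, fun ℓ hℓ hgood hℓN => ?_⟩
  have hℓM : ¬ ℓ ∣ M := fun h => hℓN (h.trans hMN)
  have hT : (U χ \ {ℓ}).Infinite := hχ.sdiff (Set.finite_singleton ℓ)
  have hcoeff : ∀ {f' : CuspForm (Gamma0 M) 2} (hf' : f'.IsNormalizedEigenform),
      χ = Quick.eigenformChar hf' ∅ →
      ModularFormClass.qCoeff f' ℓ = ModularFormClass.qCoeff f ℓ := fun {f'} hf' e => by
    rw [← Quick.eigenformChar_T hf' hℓ hℓM (Set.notMem_empty ℓ),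
      ← Quick.eigenformChar_T hf hℓ hℓM (Set.notMem_empty ℓ), ← e, hχf]
  obtain ⟨p₂, hp₂, hne₂⟩ := hT.nonempty
  obtain ⟨-, f₂, 𝔪₂, hf₂, hχ₂, -, -, ha₂⟩ : p₂ ∈ Good ∧ _ := hp₂
  obtain ⟨a₂, hae₂, -⟩ := ha₂ ℓ hℓ hgood hℓM (Ne.symm hne₂)
  rw [hcoeff hf₂ hχ₂] at hae₂
  have hx : a₂ - ((W.apOfModel ℓ : ℤ) : Zc) = 0 := by
    refine eq_zero_of_mem_maximal hT ?_
    rintro p ⟨⟨hpG, f', 𝔪, hf', hχ', h𝔪, hpm, ha⟩, hne⟩
    obtain ⟨a, hae, ham⟩ := ha ℓ hℓ hgood hℓM (Ne.symm hne)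
    rw [hcoeff hf' hχ'] at hae
    obtain rfl : a = a₂ := Subtype.ext (hae.trans hae₂.symm)
    exact ⟨hpG.1, 𝔪, h𝔪, hpm, ham⟩
  rw [← hae₂, sub_eq_zero.1 hx]
  rfl

/-- A modular semistable model is modular at a squarefree level supported at bad primes. -/
theorem exists_squarefree_level_of_baseModel {E : WeierstrassCurve ℚ}
    (hW : W.IsIntegralModelOf E) (hΔ : W.Δ ≠ 0) (hss : W.IsSemistableModel)
    (h35 : LevelDrop.NewformSpecialCharpoly)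
    (hbase : ∀ q : ℕ, ∀ [Fact q.Prime], BaseModelExists q) (hmod : E.IsModular) :
    ∃ M : ℕ, 0 < M ∧ Squarefree M ∧ (∀ q : ℕ, q.Prime → q ∣ M → (q : ℤ) ∣ W.Δ) ∧
      W.IsModularModelOfLevel M := by
  obtain ⟨W', hW', N, hN, f, hf, ha⟩ := hmod
  have hΔ' : W'.Δ ≠ 0 := by
    obtain ⟨C, hC⟩ := hW
    obtain ⟨C', hC'⟩ := hW'
    intro h0
    have hE : E.Δ ≠ 0 := fun e => hΔ (by
      have := congrArg WeierstrassCurve.Δ hC
      simpa [variableChange_Δ, e] using this.symm)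
    have := congrArg WeierstrassCurve.Δ hC'
    simp [variableChange_Δ, h0, hE] at this
  set N₁ := N * W.Δ.natAbs * W'.Δ.natAbs with hN₁
  have hN₁0 : N₁ ≠ 0 := mul_ne_zero (mul_ne_zero hN.ne' (Int.natAbs_ne_zero.2 hΔ))
    (Int.natAbs_ne_zero.2 hΔ')
  have hbad : ∀ ℓ : ℕ, ℓ.Prime → (ℓ : ℤ) ∣ W.Δ → ℓ ∣ N₁ := fun ℓ _ h =>
    dvd_mul_of_dvd_left (dvd_mul_of_dvd_right (Int.natCast_dvd.1 h) _) _
  have hd := LevelDrop.frobeniusDense
  obtain ⟨M₀, g₀, hM₀N, hg₀, hag₀⟩ := LevelDrop.exists_newform hN.ne' hf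
  haveI : NeZero M₀ := ⟨fun e => hN.ne' (zero_dvd_iff.mp (e ▸ hM₀N))⟩
  have hM₀N₁ : M₀ ∣ N₁ := (hM₀N.trans (dvd_mul_right _ _)).trans (dvd_mul_right _ _)
  have hmodW : W.IsModularModelOfLevel M₀ := ⟨g₀, hg₀.isNormalizedEigenform,
    LevelDrop.qCoeff_eq_of_good hΔ (fun ℓ hℓ hgood hℓN => by
      have hℓN0 : ¬ ℓ ∣ N := fun h => hℓN (dvd_mul_of_dvd_left (dvd_mul_of_dvd_left h _) _)
      have hgood' : W'.IsGoodPrimeFor ℓ := fun h =>
        hℓN (dvd_mul_of_dvd_right (Int.natCast_dvd.1 h) _)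
      rw [hag₀ ℓ hℓ hℓN0, ha ℓ hℓ hgood' hℓN0, apOfModel_eq_of_models hW hW' hℓ hgood hgood'])
      hM₀N₁ hN₁0 hbad hd hg₀ h35⟩
  obtain ⟨M₁, f₁, hM₁N, hsf₁, hf₁, hfa⟩ :=
    exists_eigenform_squarefree hΔ hss hbase (Nat.pos_of_neZero M₀) hmodW
  haveI : NeZero M₁ := ⟨hsf₁.ne_zero⟩
  obtain ⟨M, g, hMM, hg, hag⟩ := LevelDrop.exists_newform (NeZero.ne M₁) hf₁
  have hsf : Squarefree M := hsf₁.squarefree_of_dvd hMM
  haveI : NeZero M := ⟨hsf.ne_zero⟩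
  have hMN : M ∣ N₁ := (hMM.trans hM₁N).trans hM₀N₁
  have hgN : ∀ ℓ : ℕ, ℓ.Prime → W.IsGoodPrimeFor ℓ → ¬ ℓ ∣ N₁ →
      ModularFormClass.qCoeff g ℓ = (W.apOfModel ℓ : ℂ) := fun ℓ hℓ hgood hℓN =>
    (hag ℓ hℓ fun h => hℓN ((h.trans hM₁N).trans hM₀N₁)).trans
      (hfa ℓ hℓ hgood fun h => hℓN (h.trans hM₀N₁))
  refine ⟨M, Nat.pos_of_neZero M, hsf,
    fun q hq hqM => LevelDrop.bad_of_dvd hΔ hgN hMN hN₁0 hbad hd hg h35 q hq hqM
      (fun h => hq.not_isUnit (hsf q (by rwa [← pow_two]))),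
    g, hg.isNormalizedEigenform, LevelDrop.qCoeff_eq_of_good hΔ hgN hMN hN₁0 hbad hd hg h35⟩

end FLTAgent.Wiring
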